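import Fermat.Agent.Postnikova.Main
import Fermat.Agent.SchinzelTijdeman.Exponent

/-!
# The distance of a power from one, linearly in the height

Baker's theorem linear in the last height, applied to `log z` and `π i`: a power `z ^ j ≠ 1` of a
conjugate with `|z| ≤ 1` is at distance at least `2 ^ -(R E)` from one, `R` the height and `E` a
power of `log j` depending only on the degree.
-/

set_option autoImplicit false

noncomputable section

namespace FA.SchinzelPrimitive

open Finset NumberField Module Real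
open FA.Postnikova

variable {K : Type*} [Field K] [NumberField K]

/-- The exponent for one unit of height. -/
def heightExponent (d m : ℕ) : ℕ :=
  (BakerLastHeight.lastHeightConst 1 d * (m + 5)) ^ BakerLastHeight.lastHeightKappa 1 + 1

/-- The height, rounded. -/
def heightSize (y : K) : ℕ := ⌈Height.logHeight₁ y⌉₊ + 1

/-- **Baker's bound for the distance of a power from `1`, linear in the height.** -/
theorem dist_one_lower {d m : ℕ} (hd : finrank ℚ K ≤ d) {y : K} (hy : y ≠ 0)
    (hroot : ∀ i : ℕ, 0 < i → y ^ i ≠ 1) (σ : K →+* ℂ) {j : ℕ} (hj : 0 < j)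
    (hjm : 2 * j ≤ 2 ^ m) :
    1 / (2 : ℝ) ^ (heightSize y * heightExponent d m) ≤ ‖σ y ^ j - 1‖ := by
  set R := heightSize y with hR
  set E := (BakerLastHeight.lastHeightConst 1 d * (m + 5)) ^ BakerLastHeight.lastHeightKappa 1
    with hE
  have hR1 : 1 ≤ R := Nat.succ_pos _
  have hw0 : σ y ≠ 0 := (map_ne_zero σ).2 hy
  have hne : σ y ^ j - 1 ≠ 0 := fun h0 => hroot j hj (σ.injective (by
    rw [map_pow, map_one]
    exact sub_eq_zero.1 h0))
  rcases lt_or_ge (1 / 2 : ℝ) ‖σ y ^ j - 1‖ with hbig | hsmall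
  · refine le_trans ?_ hbig.le
    exact one_div_le_one_div_of_le two_pos
      (le_self_pow₀ one_le_two (Nat.mul_pos hR1 (Nat.succ_pos _)).ne')
  obtain ⟨k, hk, hnorm, hexp⟩ := exists_winding hw0 hj hsmall
  have heq : ((2 * k : ℤ) : ℂ) * (π * Complex.I) + ((j : ℤ) : ℂ) * Complex.log (σ y) =
      (j : ℂ) * Complex.log (σ y) + (k : ℂ) * (2 * π * Complex.I) := by
    push_cast
    ring
  have hHR : Height.logHeight₁ y + 4 ≤ ((4 * R : ℕ) : ℝ) := by
    have h1 := Nat.le_ceil (Height.logHeight₁ y)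
    have h2 := Height.zero_le_logHeight₁ y
    rw [hR, heightSize]
    push_cast
    linarith
  have hneg : Height.logHeight₁ (-1 : K) ≤ ((4 : ℕ) : ℝ) := by
    rw [Height.logHeight₁_neg, Height.logHeight₁_one]
    positivity
  have key := BakerLastHeight.baker_last_height hd σ (n := 1) (h := 4) (m := m) (R := R) hR1
    (α := fun _ => (-1 : K)) (α₀ := y) (fun _ => hneg) (by linarith)
    (l := fun _ => π * Complex.I) (l₀ := Complex.log (σ y))
    (fun _ => by simp [Complex.exp_pi_mul_I]) (Complex.exp_log hw0)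
    (fun _ => by
      rw [norm_mul, Complex.norm_real, Complex.norm_I, mul_one, norm_eq_abs, abs_of_pos pi_pos]
      exact_mod_cast pi_lt_four.le)
    ((SchinzelTijdeman.norm_log_le σ hy).trans hHR)
    (b := fun _ => 2 * k) (b₀ := (j : ℤ))
    (fun _ => by rw [Int.natAbs_mul]; simp; omega) (by simp; omega)
    (Int.natCast_ne_zero.2 hj.ne') (by
      rw [Fin.sum_univ_one, heq]
      intro h0
      rw [h0, Complex.exp_zero] at hexp
      exact hne (sub_eq_zero.2 hexp.symm))
  rw [Fin.sum_univ_one, heq, show 4 + m + 1 = m + 5 by ring, ← hE] at key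
  have h1 : 1 / (2 : ℝ) ^ (R * (E + 1)) ≤ 1 / (2 : ℝ) ^ (R * E) / 2 := by
    rw [div_div, ← pow_succ]
    refine one_div_le_one_div_of_le (by positivity) (pow_le_pow_right₀ one_le_two ?_)
    rw [mul_add, mul_one]
    omega
  have : (0 : ℝ) ≤ 1 / (2 : ℝ) ^ (R * E) := by positivity
  refine h1.trans ?_
  linarith

/-- The size of `a ^ j - b ^ j`. -/
theorem abs_log_pow_sub_pow {d m : ℕ} (hd : finrank ℚ K ≤ d) {a b : 𝓞 K} (ha : a ≠ 0)
    (hb : b ≠ 0) (hab : ∀ i : ℕ, 0 < i → ((a : K) / (b : K)) ^ i ≠ 1) (σ : K →+* ℂ) {j : ℕ}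
    (hj : 0 < j) (hjm : 2 * j ≤ 2 ^ m) :
    |log ‖σ (a : K) ^ j - σ (b : K) ^ j‖ - j * log (max ‖σ (a : K)‖ ‖σ (b : K)‖)| ≤
      ((heightSize ((a : K) / (b : K)) * heightExponent d m : ℕ) : ℝ) * log 2 := by
  wlog hle : ‖σ (a : K)‖ ≤ ‖σ (b : K)‖ generalizing a b
  · have hba : ∀ i : ℕ, 0 < i → ((b : K) / (a : K)) ^ i ≠ 1 := fun i hi h0 => hab i hi (by
      rw [← inv_div, inv_pow, h0, inv_one])
    rw [norm_sub_rev, max_comm,
      show heightSize ((a : K) / (b : K)) = heightSize ((b : K) / (a : K)) by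
        rw [heightSize, heightSize, ← inv_div, Height.logHeight₁_inv]]
    exact this hb ha hba (le_of_not_ge hle)
  set e := heightSize ((a : K) / (b : K)) * heightExponent d m with he
  set A := σ (a : K)
  set B := σ (b : K)
  have hB : 0 < ‖B‖ := norm_emb_pos σ hb
  have hAB : A ^ j - B ^ j = B ^ j * ((A / B) ^ j - 1) := by
    rw [div_pow, mul_sub, mul_one, mul_div_cancel₀ _ (pow_ne_zero _ (norm_pos_iff.1 hB))]
  have hne : (A / B) ^ j - 1 ≠ 0 := fun h0 => hab j hj (σ.injective (by
    rw [map_pow, map_div₀, map_one]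
    exact sub_eq_zero.1 h0))
  rw [max_eq_right hle, hAB, norm_mul, norm_pow, log_mul (pow_ne_zero _ hB.ne')
    (norm_ne_zero_iff.2 hne), log_pow, add_sub_cancel_left, abs_le]
  have he1 : 1 ≤ e := Nat.mul_pos (Nat.succ_pos _) (Nat.succ_pos _)
  refine ⟨?_, ?_⟩
  · have h1 := log_le_log (by positivity)
      (dist_one_lower hd (div_ne_zero (RingOfIntegers.coe_ne_zero_iff.2 ha)
        (RingOfIntegers.coe_ne_zero_iff.2 hb)) hab σ hj hjm)
    rw [one_div, log_inv, log_pow, map_div₀, ← he] at h1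
    linarith
  have h1 : ‖(A / B) ^ j - 1‖ ≤ 2 := by
    refine (norm_sub_le _ _).trans ?_
    rw [norm_pow, norm_div, norm_one]
    linarith [pow_le_one₀ (n := j) (by positivity) (div_le_one_of_le₀ hle hB.le)]
  refine (log_le_log (norm_pos_iff.2 hne) h1).trans ?_
  exact le_mul_of_one_le_left (log_nonneg one_le_two) (by exact_mod_cast he1)

/-- **The norm of a homogeneous cyclotomic value.** -/
theorem log_absNorm_homogValue_ge {d m n : ℕ} (hd : finrank ℚ K ≤ d) {a b : 𝓞 K} (ha : a ≠ 0)
    (hb : b ≠ 0) (hroot : ∀ i : ℕ, 0 < i → ((a : K) / (b : K)) ^ i ≠ 1) (hn : 0 < n)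
    (hnm : 2 * n ≤ 2 ^ m) :
    |Real.log (Ideal.absNorm (Ideal.span {homogValue a b n})) -
        n.totient * (pairLogSize a b + Real.log (Ideal.absNorm (Ideal.span {a, b})))| ≤
      d * (2 ^ n.primeFactors.card *
        (((heightSize ((a : K) / (b : K)) * heightExponent d m : ℕ) : ℝ) * Real.log 2)) := by
  have hbK : (b : K) ≠ 0 := RingOfIntegers.coe_ne_zero_iff.2 hb
  have hc := homogValue_ne_zero hb hn hroot
  rw [← sum_log_norm hc, pairLogSize, sub_add_cancel, mul_sum, ← sum_sub_distrib]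
  refine (abs_sum_le_sum_abs _ _).trans ((sum_le_card_nsmul _ _
    (2 ^ n.primeFactors.card *
      (((heightSize ((a : K) / (b : K)) * heightExponent d m : ℕ) : ℝ) * Real.log 2))
    fun σ _ => ?_).trans ?_)
  · have e : σ (homogValue a b n : K) =
        σ (b : K) ^ n.totient * (Polynomial.cyclotomic n ℂ).eval (σ (a : K) / σ (b : K)) := by
      rw [coe_homogValue hb, map_mul, map_pow, ← Polynomial.eval_map_apply,
        Polynomial.map_cyclotomic, map_div₀]
    rw [e]
    refine abs_log_homog_cyclotomic ((map_ne_zero σ).2 hbK) (fun i hi h0 => hroot i hi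
      (σ.injective (by rw [map_pow, map_div₀, map_one]; exact h0))) hn.ne' fun i hi => ?_
    exact abs_log_pow_sub_pow hd ha hb hroot σ (Nat.pos_of_mem_divisors hi)
      ((Nat.mul_le_mul_left 2 (Nat.divisor_le hi)).trans hnm)
  · rw [card_univ, Embeddings.card, nsmul_eq_mul]
    exact mul_le_mul_of_nonneg_right (Nat.cast_le.2 hd) (by positivity)

/-- With a natural denominator the size of the pair is the height. -/
theorem pairLogSize_eq_logHeight {y : K} {a : 𝓞 K} {N : ℕ} (hN : N ≠ 0)
    (e : (a : K) = (N : K) * y) : pairLogSize a (N : 𝓞 K) = Height.logHeight₁ y := by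
  have hN' : (0 : ℝ) < N := Nat.cast_pos.2 (Nat.pos_of_ne_zero hN)
  have key := FA.AbelianHeight.mulHeight_mul_absNorm (K := K) hN (x := y) (a := a) e.symm
  have hI : (Ideal.absNorm (Ideal.span {a, (N : 𝓞 K)}) : ℝ) ≠ 0 := fun h0 => by
    rw [h0, mul_zero] at key
    exact (prod_pos (s := univ) fun φ (_ : φ ∈ univ) =>
      lt_max_of_lt_right hN').ne key
  have hlog := congrArg Real.log key
  rw [Real.log_mul (Height.mulHeight₁_pos y).ne' hI, ← Height.logHeight₁_eq_log_mulHeight₁,
    Real.log_prod fun φ _ => (lt_max_of_lt_right hN').ne'] at hlog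
  rw [pairLogSize]
  simp only [map_natCast, Complex.norm_natCast]
  linarith

end FA.SchinzelPrimitive

end
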