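import Fermat.Agent.SchinzelPrimitive.Main

/-!
# Lehmer and Lucas sequences: one index for all of them

The roots lie in a field of degree at most four, so Schinzel's bound for that degree serves every
nondegenerate sequence.
-/

set_option autoImplicit false

noncomputable section

namespace FA.SchinzelPrimitive

open Finset NumberField IsDedekindDomain Module
open FA.Postnikova

/-- **Lehmer sequences**, whatever the parameters. -/
theorem lehmer_absolute {n : ℕ} {R Q : ℤ} (hco : IsCoprime R Q) {α β : ℂ}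
    (hs : (α + β) ^ 2 = R) (hp : α * β = Q) (hQ0 : Q ≠ 0)
    (hnd : ∀ i : ℕ, 0 < i → α ^ i ≠ β ^ i) (hn : schinzelBound 4 ≤ n) :
    ∃ p : ℕ, p.Prime ∧ ¬ (p : ℤ) ∣ Q * R * (R - 4 * Q) ∧ ∀ (j : ℕ) (u : ℤ),
      (u * (α - β) = α ^ j - β ^ j ∨ u * (α ^ 2 - β ^ 2) = α ^ j - β ^ j) →
        ((p : ℤ) ∣ u ↔ n ∣ j) :=
  lehmer_primitive_of (k := R.natAbs + Q.natAbs) hco
    ((Nat.le_add_right _ _).trans Nat.lt_two_pow_self.le)
    ((Nat.le_add_left _ _).trans Nat.lt_two_pow_self.le) hs hp hQ0 hnd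
    ((lt_schinzelBound 4).2.trans_le hn) fun _ _ _ _ hd ha hb _ _ hroot =>
      exists_primitive_prime hd (div_ne_zero (RingOfIntegers.coe_ne_zero_iff.2 ha)
        (RingOfIntegers.coe_ne_zero_iff.2 hb)) hroot hn

/-- **Lucas sequences**, whatever the parameters. -/
theorem lucas_absolute {n : ℕ} {P Q : ℤ} (hco : IsCoprime P Q)
    (hc : ∀ c : ℕ, c ≤ 4 → P ^ 2 ≠ c * Q) (hQ0 : Q ≠ 0) {U : ℕ → ℤ} (h0 : U 0 = 0) (h1 : U 1 = 1)
    (hrec : ∀ j, U (j + 2) = P * U (j + 1) - Q * U j) (hn : schinzelBound 4 ≤ n) :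
    ∃ p : ℕ, p.Prime ∧ ¬ (p : ℤ) ∣ Q * (P ^ 2 - 4 * Q) ∧ ∀ j : ℕ, (p : ℤ) ∣ U j ↔ n ∣ j := by
  obtain ⟨r, hr⟩ := IsAlgClosed.exists_pow_nat_eq ((P : ℂ) ^ 2 - 4 * Q) two_pos
  set α : ℂ := ((P : ℂ) + r) / 2 with hα
  set β : ℂ := ((P : ℂ) - r) / 2 with hβ
  have hs : α + β = P := by rw [hα, hβ]; ring
  have hp : α * β = Q := by
    rw [hα, hβ]
    linear_combination -hr / 4
  have hU : ∀ j, (U j : ℂ) * (α - β) = α ^ j - β ^ j := by
    intro j
    induction j using Nat.twoStepInduction with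
    | zero => simp [h0]
    | one => simp [h1]
    | more j i1 i2 =>
      rw [hrec, Int.cast_sub, Int.cast_mul, Int.cast_mul, ← hs, ← hp]
      linear_combination (α + β) * i2 - α * β * i1
  obtain ⟨p, hpp, hnd, hall⟩ := lehmer_absolute (R := P ^ 2) hco.pow_left
    (by rw [hs]; push_cast; ring) hp hQ0 (lucas_nondegenerate hc hQ0 hs hp) hn
  exact ⟨p, hpp, fun h => hnd (by rw [mul_right_comm]; exact dvd_mul_of_dvd_left h _),
    fun j => hall j (U j) (.inl (hU j))⟩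

end FA.SchinzelPrimitive

end
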