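import Fermat.Agent.SchinzelPrimitive.Arch
import Fermat.Agent.Postnikova.Lehmer

/-!
# Schinzel's theorem: the index depends only on the degree

The height is a factor of both sides of the inequality for the norm of the cyclotomic value and
cancels, as it is bounded below in terms of the degree.
-/

set_option autoImplicit false

noncomputable section

namespace FA.SchinzelPrimitive

open Finset NumberField IsDedekindDomain Module
open FA.Postnikova

/-- The constant in `n = O ((log n) ^ (2 κ))`. -/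
def indexConst (d : ℕ) : ℕ :=
  2 ^ (2 * (4 * d + 5) + 6) *
    ((BakerLastHeight.lastHeightConst 1 d + 1) * 7) ^ (2 * BakerLastHeight.lastHeightKappa 1)

/-- **The index from which primitive divisors exist**, in the degree alone. -/
def schinzelBound (d : ℕ) : ℕ :=
  (d + 1) ^ (2 * d) + 2 + 2 * (2 * (2 * BakerLastHeight.lastHeightKappa 1)) ^
    (2 * (2 * BakerLastHeight.lastHeightKappa 1)) * indexConst d ^ 2

/-- The totient eliminated. -/
theorem le_of_totient_le {n k W G e : ℕ} (hW : 0 < W) (h : n ^ 2 * W ^ 4 ≤ 2 ^ 11 * k ^ 4)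
    (hk : k ≤ 2 ^ e * W * G) : n ≤ 2 ^ (2 * e + 6) * G ^ 2 := by
  refine (Nat.pow_le_pow_iff_left two_ne_zero).1 (Nat.le_of_mul_le_mul_right ?_ (pow_pos hW 4))
  refine h.trans ((Nat.mul_le_mul_left _ (Nat.pow_le_pow_left hk 4)).trans ?_)
  have e1 : (2 ^ (2 * e + 6) * G ^ 2) ^ 2 * W ^ 4 = 2 ^ 12 * (2 ^ e * W * G) ^ 4 := by
    rw [pow_add, mul_comm 2 e, pow_mul]; ring
  rw [e1]
  exact Nat.mul_le_mul_right _ (Nat.pow_le_pow_right two_pos (by omega))

/-- The inequality solved. -/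
theorem index_lt {d n : ℕ}
    (h : n.totient ≤ 2 ^ (4 * d + 4) * 2 ^ n.primeFactors.card *
      ((Nat.log2 n + 2) + heightExponent d (Nat.log2 n + 2))) :
    n < schinzelBound d := by
  rw [schinzelBound]
  rcases eq_or_ne n 0 with rfl | hn0
  · omega
  rw [heightExponent] at h
  have hκ : 1 ≤ BakerLastHeight.lastHeightKappa 1 := by
    have := BakerLastHeight.coreKappa_facts (1 + 1)
    rw [BakerLastHeight.lastHeightKappa]
    omega
  unfold indexConst
  generalize BakerLastHeight.lastHeightKappa 1 = κ at h hκ ⊢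
  generalize BakerLastHeight.lastHeightConst 1 d = C at h ⊢
  obtain ⟨W, hW⟩ : ∃ W, 2 ^ n.primeFactors.card = W := ⟨_, rfl⟩
  obtain ⟨L, hL⟩ : ∃ L, Nat.log 2 n = L := ⟨_, rfl⟩
  rw [Nat.log2_eq_log_two, hL, hW] at h
  obtain ⟨G, hG⟩ : ∃ G, ((C + 1) * 7 * (L + 1)) ^ κ = G := ⟨_, rfl⟩
  have hG2 : (C * (L + 2 + 5)) ^ κ ≤ G := hG ▸ Nat.pow_le_pow_left (by nlinarith) κ
  have hG3 : L + 2 + 1 ≤ G := hG ▸ le_trans (by nlinarith) (Nat.le_self_pow (by omega) _)
  have h1 : n.totient ≤ 2 ^ (4 * d + 5) * W * G := by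
    refine h.trans ?_
    rw [show 2 ^ (4 * d + 5) * W * G = 2 ^ (4 * d + 4) * W * (2 * G) by
      rw [pow_succ _ (4 * d + 4)]; ring]
    exact Nat.mul_le_mul_left _ (by omega)
  have h3 := le_of_totient_le (hW ▸ Nat.two_pow_pos _) (hW ▸ sq_mul_le_totient hn0) h1
  have h4 := BakerExplicit.le_of_le_add_mul_log_pow (X := n) (u := 0)
    (D := 2 ^ (2 * (4 * d + 5) + 6) * ((C + 1) * 7) ^ (2 * κ)) (κ := 2 * κ) (by omega) (by
      refine h3.trans (le_of_eq ?_)
      rw [zero_add, hL, ← hG, ← pow_mul, mul_comm κ 2, mul_pow ((C + 1) * 7), mul_assoc])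
  have h5 : 1 ≤ (d + 1) ^ (2 * d) := Nat.one_le_pow _ _ (Nat.succ_pos _)
  omega

theorem lt_schinzelBound (d : ℕ) : (d + 1) ^ (2 * d) < schinzelBound d ∧ 2 < schinzelBound d := by
  have := Nat.one_le_pow (2 * d) (d + 1) (Nat.succ_pos d)
  rw [schinzelBound]
  omega

variable {K : Type*} [Field K] [NumberField K]

/-- **Schinzel's theorem (1974).** -/
theorem exists_primitive_prime {d n : ℕ} (hd : finrank ℚ K ≤ d) {y : K} (hy : y ≠ 0)
    (hroot : ∀ i : ℕ, 0 < i → y ^ i ≠ 1) (hn : schinzelBound d ≤ n) :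
    ∃ v : HeightOneSpectrum (𝓞 K), ∀ j : ℕ, v.valuation K (y ^ j - 1) < 1 ↔ n ∣ j := by
  by_contra hno
  obtain ⟨N, hN, a, hxa, -⟩ := exists_nat_ne_zero_exists_integer_mul_eq_and_absNorm_span_eq_pow y
  have haK : (a : K) = (N : K) * y := hxa.symm
  have hNK : (N : K) ≠ 0 := Nat.cast_ne_zero.2 hN
  have ha : a ≠ 0 := fun h0 => mul_ne_zero hNK hy (by rw [← haK, h0]; exact map_zero _)
  have hb : (N : 𝓞 K) ≠ 0 := Nat.cast_ne_zero.2 hN
  have hab : (a : K) / ((N : 𝓞 K) : K) = y := by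
    simp only [map_natCast]
    rw [haK, mul_div_cancel_left₀ _ hNK]
  have hroot' : ∀ i : ℕ, 0 < i → ((a : K) / ((N : 𝓞 K) : K)) ^ i ≠ 1 := by rwa [hab]
  have hd1 : 1 ≤ d := le_trans finrank_pos hd
  obtain ⟨h1, h2⟩ := lt_schinzelBound d
  have hn1 : 1 < n := by omega
  have hle := span_pow_mul_le hb hd (h1.trans_le hn) hn1 hroot'
    fun v hv => hno ⟨v, by rwa [hab] at hv⟩
  set m := Nat.log2 n + 2 with hm
  have hnm : 2 * n ≤ 2 ^ m := by
    have := Nat.lt_log2_self (n := n)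
    rw [hm, pow_succ]
    omega
  set E := heightExponent d m with hE
  set R := heightSize y with hR
  set W := 2 ^ n.primeFactors.card with hW
  refine absurd hn (not_le.2 (index_lt (?_ : n.totient ≤ 2 ^ (4 * d + 4) * W * (m + E))))
  clear hn h1 h2
  set k := n.totient
  have hnorm := Ideal.absNorm_dvd_absNorm_of_le hle
  rw [map_mul, map_pow, Ideal.absNorm_span_singleton (n : 𝓞 K),
    ← map_natCast (algebraMap ℤ (𝓞 K)) n, Algebra.norm_algebraMap, RingOfIntegers.rank,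
    Int.natAbs_pow, Int.natAbs_natCast] at hnorm
  have hg : 0 < Ideal.absNorm (Ideal.span {a, (N : 𝓞 K)}) := Nat.pos_of_ne_zero fun h0 => hb (by
    have := Ideal.subset_span (s := {a, (N : 𝓞 K)}) (Set.mem_insert_of_mem a rfl)
    rwa [Ideal.absNorm_eq_zero_iff.1 h0, SetLike.mem_coe, Ideal.mem_bot] at this)
  have hub := Nat.le_of_dvd (Nat.mul_pos (pow_pos hg _) (pow_pos (by omega) _)) hnorm
  have hlow := (abs_le.1 (log_absNorm_homogValue_ge hd ha hb hroot' (by omega) hnm)).1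
  rw [hab, ← hR, ← hE] at hlow
  have hP := pairLogSize_ge hd ha hb hroot'
  have hc0 : (0 : ℝ) < Ideal.absNorm (Ideal.span {homogValue a (N : 𝓞 K) n}) :=
    Nat.cast_pos.2 (absNorm_span_pos (homogValue_ne_zero hb (zero_lt_one.trans hn1) hroot'))
  have hlog := Real.log_le_log hc0 (Nat.cast_le.2 hub)
  rw [Nat.cast_mul, Nat.cast_pow, Nat.cast_pow, Real.log_mul (by positivity) (by positivity),
    Real.log_pow, Real.log_pow] at hlog
  rw [pairLogSize_eq_logHeight hN haK] at hlow hP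
  set H := Height.logHeight₁ y
  have hl2 : 0 < Real.log 2 := Real.log_pos one_lt_two
  have hlogn : (finrank ℚ K : ℝ) * Real.log n ≤ (d : ℝ) * ((m : ℝ) * Real.log 2) := by
    rw [← Real.log_pow 2 m]
    exact mul_le_mul (Nat.cast_le.2 hd) (Real.log_le_log (by positivity)
      (by exact_mod_cast (by omega : n ≤ 2 ^ m))) (Real.log_natCast_nonneg n) (Nat.cast_nonneg d)
  have hkey : (k : ℝ) * H ≤
      ((d * m + d * (W * (R * E)) : ℕ) : ℝ) * Real.log 2 := by
    push_cast at hlow ⊢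
    rw [hW]
    push_cast
    linarith
  have hRH : (R : ℝ) ≤ H * (2 : ℝ) ^ (3 * d + 3) := by
    have h1 : (R : ℝ) ≤ H + 2 := by
      rw [hR, heightSize, Nat.cast_add, Nat.cast_one]
      linarith [Nat.ceil_lt_add_one (Height.zero_le_logHeight₁ y)]
    rw [div_le_iff₀ (by positivity)] at hP
    have h2 : (1 : ℝ) ≤ 2 ^ (3 * d) := one_le_pow₀ one_le_two
    have h3 : (1 : ℝ) / 2 ≤ Real.log 2 := by linarith [Real.log_two_gt_d9]
    rw [pow_add]
    nlinarith [Height.zero_le_logHeight₁ y]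
  have h1R : (1 : ℝ) ≤ R := by exact_mod_cast (Nat.succ_pos _ : 0 < R)
  have hdm : ((d * m + d * (W * (R * E)) : ℕ) : ℝ) ≤ ((d * W * (m + E) : ℕ) : ℝ) * R := by
    have hW1 : (1 : ℝ) ≤ W := by exact_mod_cast Nat.one_le_two_pow
    have h4 : (d : ℝ) * m * 1 ≤ (d : ℝ) * m * (W * R) :=
      mul_le_mul_of_nonneg_left (one_le_mul_of_one_le_of_one_le hW1 h1R) (by positivity)
    push_cast
    linarith
  have h5 : (k : ℝ) * H ≤ ((2 ^ (4 * d + 4) * W * (m + E) : ℕ) : ℝ) * H := by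
    refine hkey.trans ((mul_le_mul_of_nonneg_right hdm hl2.le).trans ?_)
    have hl1 : Real.log 2 ≤ 1 := Real.log_two_lt_d9.le.trans (by norm_num)
    refine (mul_le_of_le_one_right (by positivity) hl1).trans
      ((mul_le_mul_of_nonneg_left hRH (Nat.cast_nonneg _)).trans ?_)
    rw [← mul_assoc, mul_right_comm]
    refine mul_le_mul_of_nonneg_right ?_ (Height.zero_le_logHeight₁ y)
    have h6 : d * W * (m + E) * 2 ^ (3 * d + 3) ≤ 2 ^ (4 * d + 4) * W * (m + E) := by
      rw [show d * W * (m + E) * 2 ^ (3 * d + 3) = d * 2 ^ (3 * d + 3) * W * (m + E) by ring]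
      refine Nat.mul_le_mul_right _ (Nat.mul_le_mul_right _ ?_)
      rw [show 4 * d + 4 = (d + 1) + (3 * d + 3) by ring, pow_add 2 (d + 1)]
      exact Nat.mul_le_mul_right _ ((Nat.le_succ d).trans Nat.lt_two_pow_self.le)
    exact_mod_cast h6
  have hH : 0 < H := lt_of_lt_of_le (by positivity) hP
  exact_mod_cast le_of_mul_le_mul_right h5 hH

/-- **Coprime integers of a number field.** -/
theorem exists_primitive_ideal {d n : ℕ} (hd : finrank ℚ K ≤ d) {a b : 𝓞 K} (ha : a ≠ 0)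
    (hb : b ≠ 0) (hab : IsCoprime a b) (hroot : ∀ i : ℕ, 0 < i → a ^ i ≠ b ^ i)
    (hn : schinzelBound d ≤ n) :
    ∃ v : HeightOneSpectrum (𝓞 K), (∀ j : ℕ, a ^ j - b ^ j ∈ v.asIdeal ↔ n ∣ j) ∧
      n ∣ Ideal.absNorm v.asIdeal - 1 := by
  have hbK : (b : K) ≠ 0 := RingOfIntegers.coe_ne_zero_iff.2 hb
  obtain ⟨v, hv⟩ := exists_primitive_prime hd
    (div_ne_zero (RingOfIntegers.coe_ne_zero_iff.2 ha) hbK) (y := (a : K) / (b : K))
    (fun i hi h1 => hroot i hi (by
      rw [div_pow, div_eq_one_iff_eq (pow_ne_zero i hbK), ← map_pow, ← map_pow] at h1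
      exact RingOfIntegers.coe_injective h1)) hn
  have hn0 : 0 < n := by have := (lt_schinzelBound d).2; omega
  refine ⟨v, fun j => ?_, dvd_absNorm_sub_one hn0 hv⟩
  have hw := valuation_eq_one_of_order hn0 ((hv n).2 dvd_rfl)
  rw [map_div₀, div_eq_one_iff_eq ((Valuation.ne_zero_iff _).2 hbK)] at hw
  have hb1 : v.valuation K (b : K) = 1 := by
    refine (v.valuation_le_one b).eq_of_not_lt fun hlt => v.isPrime.ne_top
      ((Ideal.eq_top_iff_one _).2 ?_)
    obtain ⟨s, t, hst⟩ := hab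
    have hlta : v.valuation K (a : K) < 1 := hw ▸ hlt
    rw [HeightOneSpectrum.valuation_lt_one_iff_mem] at hlt hlta
    rw [← hst]
    exact add_mem (Ideal.mul_mem_left _ _ hlta) (Ideal.mul_mem_left _ _ hlt)
  rw [← hv j, ← HeightOneSpectrum.valuation_lt_one_iff_mem (K := K)]
  refine iff_of_eq (congrArg (· < 1) ?_)
  have e : ((a ^ j - b ^ j : 𝓞 K) : K) = (b : K) ^ j * (((a : K) / (b : K)) ^ j - 1) := by
    simp only [map_sub, map_pow]
    rw [mul_sub, mul_one, ← mul_pow, mul_div_cancel₀ _ hbK]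
  refine (congrArg (v.valuation K) e).trans ?_
  rw [map_mul, map_pow, hb1, one_pow, one_mul]

end FA.SchinzelPrimitive

end
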